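import Fermat.Statements.S29
import Fermat.Agent.KummerES.ModulesAction
import Fermat.Agent.KummerES.ModulesFinal

/-!
# Residual representations of eigenforms

A weight 2 eigenform on `Γ₀(N)` has an attached mod-`p` representation, unramified outside `Np`.
-/

set_option autoImplicit false
open CuspForm CuspForm.IsNormalizedEigenform

namespace Fermat.Agent.S29

theorem result
    {N : ℕ} {g : CuspForm (CongruenceSubgroup.Gamma0 N) 2} (hg : g.IsNormalizedEigenform)
    {p : ℕ} (hp : p.Prime) {k : Type} [Field k] [CharP k p]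
    (φ : integralClosure ℤ ℂ →+* k) :
    ∃ ρ : ResidualGaloisRep k, ρ.IsAttachedTo g φ ∧
      ∀ ℓ : ℕ, ℓ.Prime → ¬ ℓ ∣ N * p → ρ.IsUnramifiedAt ℓ :=
  KummerES.exists_residualRep_of_modules (fun N _ p _ => KummerES.nonempty_gamma0Modules N p Fact.out) hg hp φ

end Fermat.Agent.S29
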