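import Fermat.Statements.S53
import Fermat.Agent.Deformation.RingData

/-!
# Universal deformation rings

An absolutely irreducible residual representation has a universal deformation ring for every
deformation condition with finite tangent space.
-/

set_option autoImplicit false
open GaloisRep

namespace Fermat.Agent.S53

theorem result
    (𝒪 : Type) [CommRing 𝒪] [IsDomain 𝒪] [IsDiscreteValuationRing 𝒪]
    [IsAdicComplete (IsLocalRing.maximalIdeal 𝒪) 𝒪] [Finite (IsLocalRing.ResidueField 𝒪)]
    (ρbar : ResidualGaloisRep (IsLocalRing.ResidueField 𝒪))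
    (𝒟 : ∀ ⦃A : Type⦄ [CommRing A] [IsLocalRing A] [Algebra 𝒪 A], GaloisRepAdic A → Prop)
    (habs : ρbar.IsAbsolutelyIrreducible)
    (h𝒟 : GaloisRep.IsDeformationCondition 𝒪 𝒟)
    (hbar : 𝒟 (GaloisRepAdic.ofResidualGaloisRep ρbar))
    (hfin : GaloisRep.TangentFinite 𝒪 ρbar 𝒟) :
    Nonempty (GaloisRep.DeformationRingData 𝒪 ρbar 𝒟) := by
  obtain ⟨Φ⟩ := Fermat.Agent.Deformation.exists_frame ρbar habs
  obtain ⟨F, hF⟩ := Fermat.Agent.Deformation.exists_separating Φ 𝒟 hfin
  have hF' : Fermat.Agent.Deformation.Separates Φ 𝒟 F := hF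
  have := Fermat.Agent.Deformation.isLocalRing_univRing h𝒟 hbar hF'
  obtain ⟨M, hM, hcoord, hlev⟩ := Fermat.Agent.Deformation.exists_univRep h𝒟 hbar hF'
  have hsurj : IsLocalHom (Ideal.Quotient.mk (Fermat.Agent.Deformation.relIdeal Φ 𝒟 F)) :=
    .of_surjective _ Ideal.Quotient.mk_surjective
  have hloc : IsLocalHom (algebraMap 𝒪 (Fermat.Agent.Deformation.UnivRing Φ 𝒟 F)) := by
    refine ⟨fun a ha => ?_⟩
    have h := hsurj.map_nonunit (algebraMap 𝒪 (MvPowerSeries F 𝒪) a) ha
    simpa [MvPowerSeries.algebraMap_apply] using MvPowerSeries.isUnit_iff_constantCoeff.mp h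
  have hres : Function.Surjective
      (IsLocalRing.residue _ ∘ algebraMap 𝒪 (Fermat.Agent.Deformation.UnivRing Φ 𝒟 F)) := by
    intro x
    obtain ⟨y, rfl⟩ := IsLocalRing.residue_surjective x
    obtain ⟨p, rfl⟩ := Ideal.Quotient.mk_surjective y
    obtain ⟨a, ha⟩ := Fermat.Agent.Deformation.residue_mvPowerSeries_surjective
      (IsLocalRing.residue (MvPowerSeries F 𝒪) p)
    refine ⟨a, ?_⟩
    have h := congrArg (IsLocalRing.ResidueField.map
      (Ideal.Quotient.mk (Fermat.Agent.Deformation.relIdeal Φ 𝒟 F))) ha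
    simpa [Function.comp, IsLocalRing.ResidueField.map_residue] using h
  have hcompl := Fermat.Agent.Deformation.isAdicComplete_quotient
    (Fermat.Agent.Deformation.relIdeal Φ 𝒟 F)
  refine ⟨{ R := Fermat.Agent.Deformation.UnivRing Φ 𝒟 F
            residue_surjective := hres
            absIrr := habs
            ρ := M.rep
            isOfType := ?_
            residual_isEquiv := hM.residual_isEquiv
            universal := ?_ }⟩
  · refine (h𝒟.iff_forall_surjective hloc hres M.rep).mpr fun B _ _ _ hB q hq _ => ?_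
    have := hB.isArtinian
    obtain ⟨n, hn⟩ := Fermat.Agent.Deformation.exists_pow_maximalIdeal_eq_bot (A := B)
    have hn' : IsLocalRing.maximalIdeal B ^ (n + 1) = ⊥ := by
      rw [pow_succ', hn, Ideal.mul_bot]
    exact h𝒟.of_isEquiv hB ⟨(M.rep_baseChangeAlong_isEquiv _ hq).some.symm⟩
      (hlev n hB q hq hn').cond
  · intro A _ _ _ _ _ _ hresA ρA hρA hequiv
    exact Fermat.Agent.Deformation.existsUnique_algHom h𝒟 hF' hM hcoord hlev A hresA ρA hρA hequiv

end Fermat.Agent.S53
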