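import Fermat.Statements.S20
import Fermat.Agent.DimFormula.Main
import Fermat.Agent.Gamma0Cosets.Orbits
import Fermat.Agent.Gamma0Cosets.Index
import Fermat.Agent.Gamma0Cosets.Cusps

/-!
# The dimension of `S₂(Γ₀(N))`

The dimension of `S₂(Γ₀(N))` is given by the genus formula.
-/

set_option autoImplicit false
open CuspForm

namespace Fermat.Agent.S20

theorem result (N : ℕ) [NeZero N] :
    (Module.finrank ℂ (CuspForm (CongruenceSubgroup.Gamma0 N) 2) : ℚ) = ModularCurve.genusFormula N := by
  have h := Fermat.Agent.DimFormula.two_mul_finrank_add_orbits N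
  have hS := Fermat.Agent.Gamma0Cosets.two_mul_card_orbits_S (N := N)
  have hU := Fermat.Agent.Gamma0Cosets.three_mul_card_orbits_ST (N := N)
  have hT := Fermat.Agent.Gamma0Cosets.card_orbits_T N
  have hC := Fermat.Agent.Gamma0Cosets.card_cosets N
  simp only [Fermat.Agent.EichlerShimura.numOrbits, Fermat.Agent.EichlerShimura.Cosets] at h
  rw [hT] at h
  rw [hC] at h hS hU
  have h' := congrArg (Nat.cast : ℕ → ℚ) h
  have hS' := congrArg (Nat.cast : ℕ → ℚ) hS
  have hU' := congrArg (Nat.cast : ℕ → ℚ) hU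
  push_cast at h' hS' hU'
  rw [ModularCurve.genusFormula]
  linear_combination (1 / 2 : ℚ) * h' - (1 / 4 : ℚ) * hS' - (1 / 6 : ℚ) * hU'

end Fermat.Agent.S20
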