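import Fermat.Agent.CarayolReduction.Pushforward
import Fermat.Agent.ModularFunctionField.Descent

/-!
# The Hecke operators on `J₀(N)` commute

For primes `ℓ ≠ ℓ'` the square `F(Nℓ) → F(Nℓℓ') ← F(Nℓ')` over `F(N)` is a compositum of the
right degree, so pullback and pushforward of divisors commute and both `T_ℓ T_ℓ'` and `T_ℓ' T_ℓ`
equal the correspondence given by `F(N) ⇉ F(Nℓℓ')`.
-/

set_option autoImplicit false

noncomputable section

open AlgebraicCurve ModularCurve

namespace Fermat.Agent.HeckeCommute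

open CarayolReduction

local notation "Qb" => AlgebraicClosure ℚ

section General

variable {K F F' E' : Type*} [Field K] [Field F] [Field F'] [Field E']
  [Algebra K F] [Algebra K F'] [Algebra K E'] [IsAlgClosed K] [CharZero K]
  [FunctionField.IsFunctionField K F] [FunctionField.IsFunctionField K F']
  [FunctionField.IsFunctionField K E']

omit [IsAlgClosed K] [CharZero K] [FunctionField.IsFunctionField K F]
  [FunctionField.IsFunctionField K F'] [FunctionField.IsFunctionField K E'] in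
/-- Pullback of divisors is functorial. -/
theorem pullbackAlong_comp [HasPrincipalDivisors K F'] [HasPrincipalDivisors K E']
    {φ : F →ₐ[K] F'} {g' : F' →ₐ[K] E'} (θ : F →ₐ[K] E')
    (hφ : φ.toRingHom.IsIntegral) (hg' : g'.toRingHom.IsIntegral) (hθ : θ.toRingHom.IsIntegral)
    (h : ∀ x, θ x = g' (φ x)) (D : Divisor K F) :
    Divisor.pullbackAlong g' hg' (Divisor.pullbackAlong φ hφ D) =
      Divisor.pullbackAlong θ hθ D := by
  refine Finsupp.ext fun u => ?_
  rw [Divisor.pullbackAlong_apply, Divisor.pullbackAlong_apply, Divisor.pullbackAlong_apply,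
    restrictAlong_comp θ hφ hg' hθ h, ← mul_assoc]
  congr 1
  obtain ⟨π, hπ⟩ := IsDiscreteValuationRing.exists_irreducible
    (u.restrictAlong θ hθ).toValuationSubring
  have h1 := Place.ord_restrictAlong θ hθ u (π : F)
  rw [h, Place.ord_restrictAlong g' hg', Place.ord_restrictAlong φ hφ,
    restrictAlong_comp θ hφ hg' hθ h, Place.ord_coe_irreducible _ hπ, mul_one, mul_one] at h1
  exact h1

end General

/-- `ψ(Np) = ψ(N) p` if `p ∣ N`, `ψ(N)(p + 1)` otherwise. -/
theorem dedekindPsi_mul_prime {p : ℕ} (hp : p.Prime) {N : ℕ} (hN : N ≠ 0) :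
    dedekindPsi (N * p) = dedekindPsi N * if p ∣ N then p else p + 1 := by
  obtain ⟨k, R, hR, rfl⟩ := Nat.exists_eq_pow_mul_and_not_dvd hN p hp.ne_one
  have hco : ∀ i, Nat.Coprime (p ^ i) R := fun i => (hp.coprime_iff_not_dvd.mpr hR).pow_left i
  rw [show p ^ k * R * p = p ^ (k + 1) * R by ring, Gamma0Cosets.dedekindPsi_mul (hco _),
    Gamma0Cosets.dedekindPsi_mul (hco _), Gamma0Cosets.dedekindPsi_prime_pow hp k.succ_pos]
  rcases Nat.eq_zero_or_pos k with rfl | hk
  · rw [if_neg (by rwa [pow_zero, one_mul]), pow_zero, dedekindPsi_one]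
    simp only [pow_one]
    ring
  · obtain ⟨i, rfl⟩ : ∃ i, k = i + 1 := ⟨k - 1, by omega⟩
    rw [if_pos (Dvd.dvd.mul_right (dvd_pow_self p (Nat.succ_ne_zero i)) R),
      Gamma0Cosets.dedekindPsi_prime_pow hp i.succ_pos]
    simp only [Nat.succ_eq_add_one, Nat.add_sub_cancel]
    ring

/-- `ψ(N)` is nonzero. -/
theorem dedekindPsi_ne_zero (N : ℕ) [NeZero N] : dedekindPsi N ≠ 0 := by
  rw [← Gamma0Cosets.card_cosets N]
  exact Subgroup.index_ne_zero_of_finite (H := CongruenceSubgroup.Gamma0 N)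

/-- The degree of an inclusion of levels is the quotient of the indices. -/
theorem dedekindPsi_mul_finrank {A B : ℕ} [NeZero A] [NeZero B] (h : A * 1 ∣ B) :
    dedekindPsi A * finrankAlong Qb (dilHom A B 1 h) = dedekindPsi B := by
  have e := Hecke.finrank_adjoin_map (dilHom A B 1 h) (ModCurveGenus.jEl A)
  have hj : dilHom A B 1 h (ModCurveGenus.jEl A) = ModCurveGenus.jEl B :=
    Subtype.ext <| by rw [coe_dilHom, qExpand_one_apply]; rfl
  rw [hj, Hecke.finrank_jEl, Hecke.finrank_jEl] at e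
  exact e.symm

/-- A subfield of the level `R` field containing `j` and `j(t^R)` is everything. -/
theorem eq_top_of_jqN_mem {R : ℕ} [NeZero R] (C : IntermediateField Qb (modularFunctionFieldBar R))
    (h₁ : (⟨qExpand Qb 1 (jqModC Qb), Hecke.qExpand_jC_mem Qb R (one_dvd R)⟩ :
      modularFunctionFieldBar R) ∈ C)
    (h₂ : (⟨qExpand Qb R (jqModC Qb), Hecke.qExpand_jC_mem Qb R dvd_rfl⟩ :
      modularFunctionFieldBar R) ∈ C) : C = ⊤ := by
  have hC : IntermediateField.adjoin Qb ({jqModC Qb, jqNModC Qb R} : Set (LaurentSeries Qb)) ≤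
      C.map (modularFunctionFieldBar R).val := by
    rw [IntermediateField.adjoin_le_iff]
    rintro x (rfl | rfl)
    · exact ⟨_, h₁, qExpand_one_apply _⟩
    · exact ⟨_, h₂, rfl⟩
  have htop : modularFunctionFieldBar R ≤ C.map (modularFunctionFieldBar R).val := by
    refine (le_of_eq (Hecke.laurentBaseChange_full Qb R)).trans ?_
    rw [IntermediateField.adjoin_le_iff]
    rintro _ ⟨_, ⟨d, hd0, hd, rfl⟩, rfl⟩
    refine hC ?_
    rw [show coeffEmb Qb (qExpand ℚ d jq) = qExpand Qb d (jqModC Qb) by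
      rw [coeffEmb, ModularFunctionField.coeffMap_qExpand', ← coeffEmb, ← Hecke.jC_eq_jqModC]; rfl]
    exact ModularFunctionField.jqd_mem_adjoin (K := Qb) (N := R)
      (Nat.cast_ne_zero.mpr (NeZero.ne R)) hd
  refine top_unique fun y _ => ?_
  obtain ⟨z, hz, hzy⟩ := htop y.2
  rwa [show z = y from Subtype.ext hzy] at hz

variable {N : ℕ} [NeZero N]

/-- `T_ℓ T_ℓ'` is the correspondence given by the two maps from level `R = Nℓℓ'`. -/
theorem hecke_hecke_mk (l l' : Nat.Primes) (hne : (l : ℕ) ≠ l') (R : ℕ) [NeZero R]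
    [NeZero ((l : ℕ) * l')] (hR : R = N * l * l') (h1 : N * 1 ∣ R)
    (h2 : N * ((l : ℕ) * l') ∣ R)
    (D : Divisor.degZero (K := Qb) (F := modularFunctionFieldBar N)) :
    ∃ D' : Divisor.degZero (K := Qb) (F := modularFunctionFieldBar N),
      heckeOperatorBar N l (heckeOperatorBar N l' (Pic0.mk D)) = Pic0.mk D' ∧
      (D' : Divisor Qb (modularFunctionFieldBar N)) =
        Divisor.pushforwardAlong (dilHom N R 1 h1) (dilHom_integral N R 1 h1)
          (Divisor.pullbackAlong (dilHom N R ((l : ℕ) * l') h2) (dilHom_integral N R _ h2)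
            (D : Divisor Qb (modularFunctionFieldBar N))) := by
  have : NeZero (l : ℕ) := ⟨l.2.ne_zero⟩
  have : NeZero (l' : ℕ) := ⟨l'.2.ne_zero⟩
  obtain ⟨hα, hβ, _, hf, hFI, hN, e⟩ := Hecke.heckeOperatorAlong_eq_pic0 Qb N (l : ℕ)
  obtain ⟨hα', hβ', _, hf', hFI', hN', e'⟩ := Hecke.heckeOperatorAlong_eq_pic0 Qb N (l' : ℕ)
  rw [heckeOperatorBar_apply, heckeOperatorBar_apply, e, e']
  refine ⟨_, rfl, ?_⟩
  set α := heckeAlphaBar Qb N (l : ℕ)
  set β := heckeBetaBar Qb N (l : ℕ)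
  set α' := heckeAlphaBar Qb N (l' : ℕ)
  set β' := heckeBetaBar Qb N (l' : ℕ)
  have ha : N * (l : ℕ) * 1 ∣ R := by rw [hR, mul_one]; exact dvd_mul_right _ _
  have hb : N * (l' : ℕ) * l ∣ R := by rw [hR, mul_right_comm]
  set a := dilHom (N * (l : ℕ)) R 1 ha
  set b := dilHom (N * (l' : ℕ)) R (l : ℕ) hb
  have hai := dilHom_integral (N * (l : ℕ)) R 1 ha
  have hbi := dilHom_integral (N * (l' : ℕ)) R (l : ℕ) hb
  show Divisor.pushforwardAlong α hα (Divisor.pullbackAlong β hβ
      (Divisor.pushforwardAlong α' hα' (Divisor.pullbackAlong β' hβ'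
        (D : Divisor Qb (modularFunctionFieldBar N))))) = _
  have hdeg : finrankAlong Qb α' = finrankAlong Qb a := by
    have hsa := dedekindPsi_mul_finrank ha
    have hsb := dedekindPsi_mul_finrank (A := N) (B := N * (l' : ℕ)) (by simp)
    rw [dilHom_eq_alpha] at hsb
    rw [dedekindPsi_mul_prime l'.2 (NeZero.ne N)] at hsb
    have hψR : dedekindPsi R = dedekindPsi (N * (l : ℕ)) *
        if (l' : ℕ) ∣ N * (l : ℕ) then (l' : ℕ) else (l' : ℕ) + 1 := by
      rw [hR, dedekindPsi_mul_prime l'.2 (NeZero.ne (N * (l : ℕ)))]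
    rw [hψR] at hsa
    have hiff : (l' : ℕ) ∣ N * l ↔ (l' : ℕ) ∣ N := by
      rw [l'.2.dvd_mul]
      exact ⟨fun h => h.resolve_right fun h' =>
        hne ((Nat.prime_dvd_prime_iff_eq l'.2 l.2).mp h').symm, Or.inl⟩
    simp only [hiff] at hsa
    rw [mul_left_cancel₀ (dedekindPsi_ne_zero N) hsb]
    exact (mul_left_cancel₀ (dedekindPsi_ne_zero (N * (l : ℕ))) hsa).symm
  have hgen : IntermediateField.adjoin Qb (Set.range b ∪ Set.range a) = ⊤ := by
    refine eq_top_of_jqN_mem _ (IntermediateField.subset_adjoin Qb _ (Or.inr ?_))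
      (IntermediateField.subset_adjoin Qb _ (Or.inl ?_))
    · exact ⟨⟨_, Hecke.qExpand_jC_mem Qb (N * (l : ℕ)) (one_dvd _)⟩,
        Subtype.ext (by rw [coe_dilHom]; exact qExpand_one_apply _)⟩
    · refine ⟨⟨_, Hecke.qExpand_jC_mem Qb (N * (l' : ℕ)) dvd_rfl⟩, Subtype.ext ?_⟩
      rw [coe_dilHom, qExpand_qExpand]
      exact qExpand_congr (by rw [hR]; ring) _
  have hθ : ∀ x, dilHom N R 1 h1 x = a (α x) := fun x => Subtype.ext <| by
    simp only [a, α, coe_dilHom, coe_heckeAlphaBar, qExpand_one_apply]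
  have hθ' : ∀ x, dilHom N R ((l : ℕ) * l') h2 x = b (β' x) := fun x => Subtype.ext <| by
    simp only [b, β', coe_dilHom, coe_heckeBetaBar, qExpand_qExpand]
  rw [← pushforwardAlong_pullbackAlong α' a β b
      (fun y => Subtype.ext <| by
        simp only [a, b, α', β, coe_dilHom, coe_heckeAlphaBar, coe_heckeBetaBar, qExpand_one_apply])
      hdeg hgen hα' hai hβ hbi,
    pushforwardAlong_comp (dilHom N R 1 h1) hα hai (dilHom_integral N R 1 h1) hθ,
    pullbackAlong_comp (dilHom N R ((l : ℕ) * l') h2) hβ' hbi (dilHom_integral N R _ h2) hθ']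

theorem dilHom_congr {A B d d' : ℕ} [NeZero A] [NeZero B] [NeZero d] [NeZero d'] (e : d = d')
    (h : A * d ∣ B) (h' : A * d' ∣ B) : dilHom A B d h = dilHom A B d' h' := by
  subst e; rfl

variable (N) in
/-- **The Hecke operators on `J₀(N)` commute.** -/
theorem heckeOperatorsCommuteBar : HeckeOperatorsCommuteBar N := by
  intro l l'
  rcases eq_or_ne (l : ℕ) l' with e | hne
  · rw [Subtype.ext e]
  have : NeZero (l : ℕ) := ⟨l.2.ne_zero⟩
  have : NeZero (l' : ℕ) := ⟨l'.2.ne_zero⟩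
  refine LinearMap.ext fun x => ?_
  obtain ⟨D, rfl⟩ := Pic0.mk_surjective x
  have h1 : N * 1 ∣ N * (l : ℕ) * l' := ⟨(l : ℕ) * l', by ring⟩
  have h2 : N * ((l : ℕ) * l') ∣ N * (l : ℕ) * l' := by rw [mul_assoc]
  have h2' : N * ((l' : ℕ) * l) ∣ N * (l : ℕ) * l' := ⟨1, by ring⟩
  obtain ⟨D₁, e₁, d₁⟩ := hecke_hecke_mk l l' hne _ rfl h1 h2 D
  obtain ⟨D₂, e₂, d₂⟩ := hecke_hecke_mk l' l hne.symm _ (mul_right_comm _ _ _) h1 h2' D
  rw [Module.End.mul_apply, Module.End.mul_apply, e₁, e₂]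
  refine congrArg Pic0.mk (Subtype.ext ?_)
  rw [d₁, d₂]
  simp only [dilHom_congr (mul_comm (l : ℕ) l') h2 h2']

end Fermat.Agent.HeckeCommute
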