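import Fermat.Statements.S19
import Fermat.Agent.GoodModel.TorsionModel
import Fermat.Agent.GoodModel.PullbackHom

/-!
# Finite flat models of torsion

For `ℓ ∤ N` the `ℓᵏ`-torsion of `J₀(N)` extends to a finite flat group scheme over `ℤ_(ℓ)`.
-/

set_option autoImplicit false
open ModularCurve
open ModularCurve

namespace Fermat.Agent.S19

theorem result
    (p : ℕ) [NeZero p] (ℓ : ℕ) [Fact ℓ.Prime] (hℓp : ¬ ℓ ∣ p) (k : ℕ) :
    ∃ (H : Type) (_ : CommRing H) (_ : HopfAlgebra (GaloisRep.ratLocalizedAt ℓ) H),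
      Module.Finite (GaloisRep.ratLocalizedAt ℓ) H ∧ Module.Flat (GaloisRep.ratLocalizedAt ℓ) H ∧
      Coalgebra.IsCocomm (GaloisRep.ratLocalizedAt ℓ) H ∧
      ∃ e : WithConv (H →ₐ[GaloisRep.ratLocalizedAt ℓ] AlgebraicClosure ℚ) ≃
          ↥(Submodule.torsionBy ℤ (JZero p) ((ℓ : ℤ) ^ k)),
        (∀ f g, e (f * g) = e f + e g) ∧
        ∀ (σ : AlgebraicClosure ℚ ≃ₐ[ℚ] AlgebraicClosure ℚ)
          (f g : WithConv (H →ₐ[GaloisRep.ratLocalizedAt ℓ] AlgebraicClosure ℚ)),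
          (∀ h : H, g h = σ (f h)) → ((e g : JZero p)) = σ • (e f : JZero p) := by
  have hℓ : ℓ.Prime := Fact.out
  obtain ⟨h, M, _, _, hh, hhM, hℓM, φ, hφ, hinj⟩ :=
    GoodModel.exists_auxLevel_pullback p hℓ hℓp
  exact GoodModel.exists_finiteFlat_model_torsion hℓ hh hhM hℓM k φ hφ (hinj k)

end Fermat.Agent.S19
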