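import Fermat.Statements.S05
import Fermat.Agent.FreyUnramified.Frey

/-!
# Ramification of the Frey representation

The mod-`p` representation of the Frey curve is unramified at every prime `q ≠ 2, p`.
-/

set_option autoImplicit false
open WeierstrassCurve WeierstrassCurve.Affine WeierstrassCurve.Affine.Point
open CuspForm ModularFormClass UpperHalfPlane
open FreyPackage

namespace Fermat.Agent.S05

theorem result (P : FreyPackage) {q : ℕ} (hq : q.Prime) (hq2 : q ≠ 2) (hqp : q ≠ P.p) : P.GaloisRepUnramifiedAt q :=
  Fermat.Agent.FreyUnramified.frey_unramified P hq hq2 hqp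

end Fermat.Agent.S05
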