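import Fermat.Statements.S07
import Fermat.Agent.SmallLevel.Vanishing

/-!
# Weight two cusp forms of level two

There is no nonzero cusp form of weight 2 for `Γ₀(2)`.
-/

set_option autoImplicit false
open WeierstrassCurve WeierstrassCurve.Affine WeierstrassCurve.Affine.Point
open CuspForm ModularFormClass UpperHalfPlane
open ModularForm

namespace Fermat.Agent.S07

theorem result (f : CuspForm (CongruenceSubgroup.Gamma0 2) 2) : f = 0 :=
  Fermat.Agent.SmallLevel.cuspForm_eq_zero_of_index_lt (N := 2) (k := 2)
    (Fermat.Agent.SmallLevel.Gamma_le_Gamma0 2)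
    (by have := Fermat.Agent.SmallLevel.index_Gamma0_two_le; omega) f

end Fermat.Agent.S07
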