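import Fermat.Statements.S10
import Fermat.Agent.SmallExponent.Frey

/-!
# Cofixed lines, small exponents

The mod-`p` Frey representation has no Galois-stable cofixed line for `p = 5, 7, 13`, since a Frey
package has exponent at least 17.
-/

set_option autoImplicit false
open WeierstrassCurve WeierstrassCurve.Affine WeierstrassCurve.Affine.Point
open CuspForm ModularFormClass UpperHalfPlane
open FreyPackage

namespace Fermat.Agent.S10

theorem result (P : FreyPackage) (hp : P.p = 5 ∨ P.p = 7 ∨ P.p = 13) : ¬ HasGaloisStableCofixedLine (K := AlgebraicClosure ℚ) ℚ P.freyCurve P.p := by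
  have := Fermat.Agent.SmallExponent.seventeen_le_exponent P
  omega

end Fermat.Agent.S10
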