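import Fermat.Statements.S13
import Fermat.Agent.FreyReducible.RationalPoint
import Fermat.Agent.GaloisBasics.Minkowski

/-!
# Reducible Frey representations

If the mod-`p` representation of the Frey curve is reducible it has a Galois-stable cofixed line,
as there is no rational `p`-torsion point.
-/

set_option autoImplicit false
open WeierstrassCurve WeierstrassCurve.Affine WeierstrassCurve.Affine.Point
open CuspForm ModularFormClass UpperHalfPlane
open FreyPackage

namespace Fermat.Agent.S13

theorem result (P : FreyPackage) (hred : ¬ GaloisRepIsIrreducible (K := AlgebraicClosure ℚ) ℚ P.freyCurve P.p) : HasGaloisStableCofixedLine (K := AlgebraicClosure ℚ) ℚ P.freyCurve P.p := by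
  have := Fact.mk P.pp
  have hT := FreyReducible.torsionInput_frey P
  have hfin := FreyReducible.finite_tors hT
  have hnt : Nontrivial (Submodule.torsionBy ℤ ((P.freyCurve : Affine ℚ)⁄(AlgebraicClosure ℚ)).Point P.p) := by
    rw [← Finite.one_lt_card_iff_nontrivial]
    show 1 < Nat.card (FreyReducible.Tors (P.freyCurve : Affine ℚ) P.p)
    rw [hT.card]
    exact Nat.one_lt_pow two_ne_zero P.pp.one_lt
  simp only [GaloisRepIsIrreducible, not_and, not_forall, not_or] at hred
  obtain ⟨N, hst, h0, h1⟩ := hred hnt
  rcases FreyReducible.fixed_or_cofixed hT hst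
      (fun H L hL hle hI => @GaloisBasics.eq_top_of_inertia_le H L hL hle hI)
      (FreyReducible.nodeInput_frey P) h0 h1 with hfix | hcofix
  · obtain ⟨c, hc, hc0⟩ := Submodule.exists_mem_ne_zero_of_ne_bot h0
    exact (FreyReducible.no_fixed_torsion_point P c hc0 fun σ => hfix σ c hc).elim
  · exact ⟨N, hst, h0, h1, hcofix⟩

end Fermat.Agent.S13
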