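import Fermat.Statements.S02

/-!
# Frey packages

A solution of `aᵖ + bᵖ = cᵖ` in nonzero integers, `p ≥ 5` prime, can be normalised to a Frey
package: divide by the gcd, then permute and change signs so that `b` is even and `a ≡ 3 mod 4`.
-/

set_option autoImplicit false
open FreyPackage

namespace Fermat.Agent.S02

/-- Normalised case: coprime, `b` even, `a` odd. The sign is fixed so that `a ≡ 3 (mod 4)`. -/
lemma nonempty_of_even_right (a b c : ℤ) (ha : a ≠ 0) (hb : b ≠ 0) (hc : c ≠ 0) (p : ℕ)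
    (pp : p.Prime) (hp5 : 5 ≤ p) (H : a ^ p + b ^ p = c ^ p) (hab : Int.gcd a b = 1)
    (hb2 : (2 : ℤ) ∣ b) (ha2 : ¬ (2 : ℤ) ∣ a) : Nonempty FreyPackage := by
  have hodd : Odd p := pp.odd_of_ne_two (by omega)
  have hbz : (b : ZMod 2) = 0 := (ZMod.intCast_zmod_eq_zero_iff_dvd b 2).2 hb2
  have hmod : a % 4 = 1 ∨ a % 4 = 3 := by omega
  rcases hmod with h | h
  · refine ⟨⟨-a, -b, -c, neg_ne_zero.2 ha, neg_ne_zero.2 hb, neg_ne_zero.2 hc, p, pp, hp5,
      ?_, ?_, ?_, ?_⟩⟩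
    · rw [hodd.neg_pow, hodd.neg_pow, hodd.neg_pow, ← H]; ring
    · change ((Int.gcd (-a) (-b) : ℕ) : ℤ) = 1
      simp [Int.gcd_neg, Int.neg_gcd, hab]
    · have : ((-a : ℤ) : ZMod 4) = ((3 : ℤ) : ZMod 4) := by
        rw [ZMod.intCast_eq_intCast_iff']
        push_cast
        omega
      exact_mod_cast this
    · simp [hbz]
  · refine ⟨⟨a, b, c, ha, hb, hc, p, pp, hp5, H, ?_, ?_, hbz⟩⟩
    · change ((Int.gcd a b : ℕ) : ℤ) = 1
      rw [hab]; rfl
    · have : ((a : ℤ) : ZMod 4) = ((3 : ℤ) : ZMod 4) := by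
        rw [ZMod.intCast_eq_intCast_iff']
        push_cast
        omega
      exact_mod_cast this

/-- Coprime case. -/
lemma nonempty_of_coprime (a b c : ℤ) (ha : a ≠ 0) (hb : b ≠ 0) (hc : c ≠ 0) (p : ℕ)
    (pp : p.Prime) (hp5 : 5 ≤ p) (H : a ^ p + b ^ p = c ^ p) (hab : Int.gcd a b = 1) :
    Nonempty FreyPackage := by
  have hodd : Odd p := pp.odd_of_ne_two (by omega)
  have not_both : ¬ ((2 : ℤ) ∣ a ∧ (2 : ℤ) ∣ b) := by
    rintro ⟨h1, h2⟩
    have h3 := Int.dvd_coe_gcd h1 h2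
    rw [hab] at h3
    norm_num at h3
  by_cases hb2 : (2 : ℤ) ∣ b
  · exact nonempty_of_even_right a b c ha hb hc p pp hp5 H hab hb2 fun h => not_both ⟨h, hb2⟩
  by_cases ha2 : (2 : ℤ) ∣ a
  · exact nonempty_of_even_right b a c hb ha hc p pp hp5 (by rw [← H]; ring)
      (by rwa [Int.gcd_comm]) ha2 hb2
  -- both odd, so `c` is even
  have hc2 : (2 : ℤ) ∣ c := by
    have h0 : (2 : ℤ) ∣ c ^ p := by
      rw [← H]
      have ea : Odd (a ^ p) := (Int.odd_iff.2 (by omega)).pow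
      have eb : Odd (b ^ p) := (Int.odd_iff.2 (by omega)).pow
      exact (ea.add_odd eb).two_dvd
    exact Int.prime_two.dvd_of_dvd_pow h0
  have hac : Int.gcd a (-c) = 1 := by
    have h := FreyPackage.gcdab_eq_gcdac pp.pos H
    have h' : ((Int.gcd a b : ℕ) : ℤ) = ((Int.gcd a c : ℕ) : ℤ) := h
    have h'' : Int.gcd a b = Int.gcd a c := by exact_mod_cast h'
    rw [Int.gcd_neg, ← h'', hab]
  exact nonempty_of_even_right a (-c) (-b) ha (neg_ne_zero.2 hc) (neg_ne_zero.2 hb) p pp hp5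
    (by rw [hodd.neg_pow, hodd.neg_pow, ← H]; ring) hac (dvd_neg.2 hc2) ha2

theorem result (a b c : ℤ) (ha : a ≠ 0) (hb : b ≠ 0) (hc : c ≠ 0) (p : ℕ) (pp : p.Prime) (hp5 : 5 ≤ p) (H : a ^ p + b ^ p = c ^ p) : Nonempty FreyPackage := by
  obtain ⟨a', b', hab, ea, eb⟩ := Int.exists_gcd_one (Int.gcd_pos_of_ne_zero_left b ha)
  set g : ℤ := ((Int.gcd a b : ℕ) : ℤ) with hg
  have hg0 : g ≠ 0 := by
    rw [hg]; exact_mod_cast (Int.gcd_pos_of_ne_zero_left b ha).ne'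
  have hgc : g ^ p ∣ c ^ p := ⟨a' ^ p + b' ^ p, by rw [← H, ea, eb]; ring⟩
  obtain ⟨c', ec⟩ := (Int.pow_dvd_pow_iff pp.pos.ne').1 hgc
  refine nonempty_of_coprime a' b' c' ?_ ?_ ?_ p pp hp5 ?_ hab
  · rintro rfl; exact ha (by rw [ea]; ring)
  · rintro rfl; exact hb (by rw [eb]; ring)
  · rintro rfl; exact hc (by rw [ec]; ring)
  · apply mul_left_cancel₀ (pow_ne_zero p hg0)
    rw [← mul_pow, ← ec, ← H, ea, eb]; ring

end Fermat.Agent.S02
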