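import Fermat.Statements.S17
import Fermat.Agent.MW.Final
import Fermat.Agent.MW.Modular.Main
import Fermat.Agent.MW.Weak.Divisible

/-!
# Mordell–Weil for `J₀(N)`

For a prime `N ≥ 5` the rational points of `J₀(N)` form a finitely generated group.
-/

set_option autoImplicit false
open ModularCurve AlgebraicCurve
open ModularCurve ModularCurve.JZero

namespace Fermat.Agent.S17

theorem result (N : ℕ) [NeZero N] (hN : N.Prime) (hN5 : 5 ≤ N) :
    AddGroup.FG ↥(FixedPoints.addSubgroup ((AlgebraicClosure ℚ) ≃ₐ[ℚ] (AlgebraicClosure ℚ)) (JZero N)) := by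
  exact Fermat.Agent.MW.fg_fixed_of_divisible (Fermat.Agent.MW.Modular.curveBasisQ N) (Fermat.Agent.MW.Modular.jzeroEquiv N) (Fermat.Agent.MW.Modular.jzeroEquiv_smul N)
    fun x => ((Fermat.Agent.MW.Modular.curveBasisQ N).baseChange _).exists_nsmul_eq two_pos x

end Fermat.Agent.S17
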