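import Fermat.Statements.S43
import Fermat.Agent.LevelLowering.Glue.Frey
import Fermat.Agent.LevelLowering.Away.RemoveAwayOfKummer
import Fermat.Agent.LevelLowering.Away.KummerStep
import Fermat.Agent.LevelLowering.Away.Main

/-!
# Level lowering for the Frey curve away from `p`

An odd prime `q ≠ p` where the Frey representation is unramified can be removed from the level.
-/

set_option autoImplicit false
open WeierstrassCurve WeierstrassCurve.Affine WeierstrassCurve.Affine.Point
open CuspForm ModularFormClass UpperHalfPlane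
open FreyPackage

namespace Fermat.Agent.S43

theorem result (P : FreyPackage) {N q : ℕ} (hcond : P.IsConductorLevel N) (hq : q.Prime) (hq2 : q ≠ 2) (hqp : q ≠ P.p) (hqN : q ∣ N) (hirr : GaloisRepIsIrreducible (K := AlgebraicClosure ℚ) ℚ P.freyCurve P.p) (hmod : P.ModularRepOfLevel N) (hunr : P.GaloisRepUnramifiedAt q) : ∃ M : ℕ, M ∣ N ∧ ¬ q ∣ M ∧ P.ModularRepOfLevel M := by
  have : Fact P.p.Prime := ⟨P.pp⟩
  exact Fermat.Agent.LevelLowering.Glue.lowerAtOddPrime_of_core
    (fun P => haveI : Fact P.p.Prime := ⟨P.pp⟩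
      Fermat.Agent.LevelLowering.Away.core_of_kummerStep' Fermat.Agent.LevelLowering.Away.kummerStep
        (Fermat.Agent.FreyModel.freyCurveInt_Δ_ne_zero P)
        (Fermat.Agent.FreyModel.freyCurveInt_isSemistableModel P) P.pp
        (Fermat.Agent.LevelLowering.Glue.freyPrime_ne_two P))
    P hcond hq hq2 hqp hqN hirr hmod hunr

end Fermat.Agent.S43
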