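import Fermat.Statements.S54
import Fermat.Agent.Frobenius.Existence

/-!
# The map `R → T`

A universal deformation ring surjects onto the coefficient ring of a Hecke–Galois datum.
-/

set_option autoImplicit false
open GaloisRep GaloisRep.DeformationRingData

namespace Fermat.Agent.S54

/-- Equivalent adic representations have the same characteristic polynomials. -/
theorem charpoly_eq_of_isEquiv {A : Type} [CommRing A] [IsLocalRing A] {ρ₁ ρ₂ : GaloisRepAdic A}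
    (h : ρ₁.IsEquiv ρ₂) (σ : AlgebraicClosure ℚ ≃ₐ[ℚ] AlgebraicClosure ℚ) :
    (ρ₂.ρ σ).charpoly = (ρ₁.ρ σ).charpoly := by
  obtain ⟨e⟩ := h
  have hc : ρ₂.ρ σ = e.toLinearEquiv.conj (ρ₁.ρ σ) := by
    refine LinearMap.ext fun x => ?_
    rw [LinearEquiv.conj_apply_apply, e.map_apply, LinearEquiv.apply_symm_apply]
  rw [hc, LinearEquiv.charpoly_conj]

/-- Characteristic polynomials of a base-changed adic representation. -/
theorem charpoly_baseChangeAlong {A B : Type} [CommRing A] [IsLocalRing A] [CommRing B]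
    [IsLocalRing B] (φ : A →+* B) (hφ : IsLocalHom φ) (ρ : GaloisRepAdic A)
    (σ : AlgebraicClosure ℚ ≃ₐ[ℚ] AlgebraicClosure ℚ) :
    ((ρ.baseChangeAlong φ hφ).ρ σ).charpoly = ((ρ.ρ σ).charpoly).map φ := by
  let _ : Algebra A B := φ.toAlgebra
  exact LinearMap.charpoly_baseChange (ρ.ρ σ) B

theorem result {𝒪 : Type} [CommRing 𝒪] [IsDomain 𝒪] [IsDiscreteValuationRing 𝒪] [IsAdicComplete (IsLocalRing.maximalIdeal 𝒪) 𝒪] {ρbar : ResidualGaloisRep (IsLocalRing.ResidueField 𝒪)} {𝒟 : ∀ ⦃A : Type⦄ [CommRing A] [IsLocalRing A] [Algebra 𝒪 A], GaloisRepAdic A → Prop} (D : GaloisRep.DeformationRingData 𝒪 ρbar 𝒟) {N : ℕ} [NeZero N] {S : Set ℕ} {θ : CuspForm.heckeAlgebra N 2 S →+* IsLocalRing.ResidueField 𝒪} {T : Type} [CommRing T] [IsLocalRing T] [IsNoetherianRing T] [IsAdicComplete (IsLocalRing.maximalIdeal T) T] [Algebra 𝒪 T] [IsLocalHom (algebraMap 𝒪 T)] [Module.Finite 𝒪 T] [Module.Free 𝒪 T] (H : CuspForm.HeckeGaloisRepDatum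 N S 𝒪 θ T) (hS : ∀ q : ℕ, q.Prime → q ∣ N → q ∈ S) (h𝒟 : 𝒟 H.ρ) (hres : H.ρ.residual.IsEquiv (ρbar.baseChangeAlong (IsLocalRing.ResidueField.map (algebraMap 𝒪 T)))) : ∃ φ : D.R →ₐ[𝒪] T, Function.Surjective φ ∧ ∃ hφ : IsLocalHom (φ : D.R →+* T), (D.ρ.baseChangeAlong (φ : D.R →+* T) hφ).IsEquiv H.ρ := by
  obtain ⟨φ, ⟨hφ, hequiv⟩, -⟩ := D.universal T H.residue_surjective H.ρ h𝒟 hres
  refine ⟨φ, ?_, hφ, hequiv⟩
  -- the image of `φ` contains every Hecke operator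
  have hgen : ∀ t : CuspForm.heckeAlgebra N 2 S, H.π t ∈ φ.range := by
    rintro ⟨t, ht⟩
    induction ht using Algebra.adjoin_induction with
    | mem x hx =>
      rcases hx with ⟨ℓ, hℓ, hℓN, hℓS, rfl⟩ | ⟨q, hqN, hq, hqS, -⟩
      · obtain ⟨A, σ, hA, hσ⟩ := Fermat.Agent.Frobenius.exists_place_isFrobeniusAt hℓ
        have h := congrArg (fun p : Polynomial T => p.coeff 1)
          (H.charpoly_frob ℓ hℓ hℓN hℓS A hA σ hσ)
        rw [charpoly_eq_of_isEquiv hequiv, charpoly_baseChangeAlong] at h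
        refine ⟨-(LinearMap.charpoly (D.ρ.ρ σ)).coeff 1, ?_⟩
        simp [Polynomial.coeff_map, Polynomial.coeff_X_pow, Polynomial.coeff_C] at h
        show φ (-_) = H.π (CuspForm.heckeAlgebra.T hℓ hℓN hℓS)
        rw [map_neg, h, neg_neg]
      · exact absurd (hS q hq hqN) hqS
    | algebraMap r =>
      have : (⟨algebraMap ℤ _ r, Subalgebra.algebraMap_mem _ r⟩ : CuspForm.heckeAlgebra N 2 S)
          = (r : CuspForm.heckeAlgebra N 2 S) := Subtype.ext (by simp)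
      rw [this, map_intCast]
      exact intCast_mem φ.range r
    | add x y hx hy ihx ihy =>
      exact (map_add H.π ⟨x, hx⟩ ⟨y, hy⟩) ▸ add_mem ihx ihy
    | mul x y hx hy ihx ihy =>
      exact (map_mul H.π ⟨x, hx⟩ ⟨y, hy⟩) ▸ mul_mem ihx ihy
  have htop : φ.range = ⊤ := top_unique (H.adjoin_range_π ▸
    Algebra.adjoin_le (by rintro _ ⟨t, rfl⟩; exact hgen t))
  exact fun y => (htop ▸ (Algebra.mem_top : y ∈ ⊤) : y ∈ φ.range)

end Fermat.Agent.S54
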