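import Fermat.Statements.S34
import Fermat.Agent.UnipotentInertia.Modules
import Fermat.Agent.UnipotentInertia.Translate
import Fermat.Agent.TwoComp.Export

/-!
# Unipotent inertia

The representation of a Hecke–Galois datum has unipotent inertia at primes `q ≠ p` exactly
dividing the level.
-/

set_option autoImplicit false
open IsLocalRing
open CuspForm CuspForm.HeckeGaloisRepDatum

namespace Fermat.Agent.S34

theorem result
    {𝒪 : Type} [CommRing 𝒪] [IsDomain 𝒪] [IsDiscreteValuationRing 𝒪]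
    [IsAdicComplete (maximalIdeal 𝒪) 𝒪] [Finite (ResidueField 𝒪)] [CharZero 𝒪]
    {p : ℕ} (hp : p.Prime) (hp𝒪 : (p : 𝒪) ∈ maximalIdeal 𝒪)
    {N : ℕ} [NeZero N] {S : Finset ℕ} (hpS : p ∈ S) (hNS : ∀ q : ℕ, q.Prime → q ∣ N → q ∈ S)
    {θ : CuspForm.heckeAlgebra N 2 (↑S : Set ℕ) →+* ResidueField 𝒪}
    {T : Type} [CommRing T] [IsLocalRing T] [IsNoetherianRing T]
    [IsAdicComplete (maximalIdeal T) T] [Algebra 𝒪 T] [IsLocalHom (algebraMap 𝒪 T)]
    [Module.Finite 𝒪 T] [Module.Free 𝒪 T]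
    (H : CuspForm.HeckeGaloisRepDatum N (↑S : Set ℕ) 𝒪 θ T)
    (q : ℕ) (hq : q.Prime) (hqp : q ≠ p) (hqN : q ∣ N) (hq2 : ¬ q ^ 2 ∣ N) :
    H.ρ.IsUnipotentOnInertiaAt q := by
  refine Fermat.Agent.UnipotentInertia.isUnipotentOnInertiaAt_of_core
    (Fermat.Agent.UnipotentInertia.unipotentAtSplitLevels_of_twistRoot
      fun M r n hr hrM hM hn0 hn A hA σ hσ => ?_) hp hp𝒪 hNS H hq hqp hqN hq2
  have : NeZero r := ⟨hr.ne_zero⟩
  have : NeZero M := ⟨fun h => hrM (h ▸ dvd_zero r)⟩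
  exact Fermat.Agent.TwoComp.twistRoot hr hrM hM hn0 hn hA hσ

end Fermat.Agent.S34
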