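import Fermat.Statements.S49
import Fermat.Agent.HeckeLift.DeligneSerre

/-!
# The lifting lemma

A lattice-realised eigensystem of character `χ₋₃` is congruent above 3 to a weight 2 eigenform.
-/

set_option autoImplicit false
open CuspForm EisensteinWeightOne CongruenceSubgroup ModularFormClass
open FLT FLT.AbstractIntegralStructure
open scoped IsMulCommutative

namespace Fermat.Agent.S49

/-- `χ₋₃(n) ≡ n` modulo 3. -/
theorem chiNegThree_congr (n : ℕ) : (3 : ℤ) ∣ (n : ℤ) - chiNegThree n := by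
  unfold chiNegThree
  split_ifs <;> omega

/-- Multiplying by the weight one Eisenstein series does not change the coefficients modulo 3. -/
theorem bridgeProduct_congr (a : ℕ → ℤ) (n : ℕ) :
    (3 : ℤ) ∣ (bridgeProduct a).coeff n - a n := by
  have h1 : ∀ m, (3 : ℤ) ∣ (e1Chi3In ℤ).coeff m - (PowerSeries.coeff m (1 : PowerSeries ℤ)) := by
    intro m
    rw [e1Chi3In, PowerSeries.coeff_map, e1Chi3, PowerSeries.coeff_mk, PowerSeries.coeff_one]
    by_cases hm : m = 0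
    · simp [hm]
    · simp [hm, Dvd.dvd.mul_right (by norm_num : (3 : ℤ) ∣ 6)]
  have h2 : (bridgeProduct a).coeff n - a n =
      (PowerSeries.mk a * (e1Chi3In ℤ - 1)).coeff n := by
    rw [bridgeProduct, mul_sub, mul_one, map_sub, PowerSeries.coeff_mk]
  rw [h2, PowerSeries.coeff_mul]
  refine Finset.dvd_sum fun x _ => Dvd.dvd.mul_left ?_ _
  rw [map_sub]
  exact h1 x.2

theorem result
    {N : ℕ} [NeZero N] (h : CuspForm.HasIntegralBasis N) {a : ℕ → ℤ}
    (heig : FormalHecke.IsEigensystem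
      (fun ℓ => if ℓ ∣ N then 0 else ((chiNegThree ℓ : ℤ) : ℤ)) a)
    (hreal : CuspForm.IsLatticeRealized N a) :
    ∃ (f : CuspForm (Gamma0 N) 2) (_ : f.IsNormalizedEigenform)
      (𝔪' : Ideal (integralClosure ℤ ℂ)), 𝔪'.IsMaximal ∧
      ((3 : ℕ) : integralClosure ℤ ℂ) ∈ 𝔪' ∧
      ∀ (ℓ : ℕ) (_ : ℓ.Prime) (_ : ¬ ℓ ∣ N),
        ∃ c : integralClosure ℤ ℂ, (c : ℂ) = ModularFormClass.qCoeff f ℓ ∧
          c - (a ℓ : integralClosure ℤ ℂ) ∈ 𝔪' := by
  obtain ⟨f, hf, af, haf, hcong⟩ := hreal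
  have hint : CuspForm.HasIntegralStructure N 2 := by
    refine eq_top_iff.mpr (le_of_eq_of_le h.symm (Submodule.span_mono ?_))
    intro g hg
    refine Fermat.Agent.HeckeLift.mem_intLattice_of_int_qCoeff fun n => ?_
    obtain ⟨m, hm⟩ := Subring.mem_bot.mp (hg n)
    exact ⟨m, hm.symm⟩
  have hmod : ∀ n, (3 : ℤ) ∣ af n - a n := fun n => by
    have := dvd_add (hcong n) (bridgeProduct_congr a n)
    simpa using this
  -- the ideal of Hecke operators sending `f` into `3 • intLattice`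
  let 𝔭 : Ideal (CuspForm.heckeAlgebra N 2 ∅) :=
    { carrier := {t | ∃ g ∈ CuspForm.intLattice N 2,
        (t : Module.End ℂ (CuspForm (Gamma0 N) 2)) f = (3 : ℤ) • g}
      add_mem' := by
        rintro s t ⟨g, hg, hs⟩ ⟨g', hg', ht⟩
        exact ⟨g + g', add_mem hg hg', by
          rw [AddMemClass.coe_add, LinearMap.add_apply, hs, ht, smul_add]⟩
      zero_mem' := ⟨0, zero_mem _, by simp⟩
      smul_mem' := by
        rintro s t ⟨g, hg, ht⟩
        exact ⟨_, CuspForm.mem_intLattice_of_mem_heckeAlgebra one_le_two s.2 hg, by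
          rw [smul_eq_mul, MulMemClass.coe_mul, Module.End.mul_apply, ht, map_zsmul]⟩ }
  have hmem𝔭 : ∀ t : CuspForm.heckeAlgebra N 2 ∅,
      (∀ n, ∃ m : ℤ, (3 : ℤ) ∣ m ∧
        qCoeff ⇑((t : Module.End ℂ (CuspForm (Gamma0 N) 2)) f) n = (m : ℂ)) → t ∈ 𝔭 := by
    intro t ht
    refine ⟨(1 / 3 : ℂ) • (t : Module.End ℂ (CuspForm (Gamma0 N) 2)) f,
      Fermat.Agent.HeckeLift.mem_intLattice_of_int_qCoeff fun n => ?_, ?_⟩
    · obtain ⟨_, ⟨m, rfl⟩, hm⟩ := ht n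
      refine ⟨m, ?_⟩
      rw [Fermat.Agent.HeckeLift.qCoeff_smul, hm]
      push_cast; ring
    · rw [← Int.cast_smul_eq_zsmul ℂ, smul_smul]
      norm_num
  have h3 : ((3 : ℕ) : CuspForm.heckeAlgebra N 2 ∅) ∈ 𝔭 :=
    hmem𝔭 _ fun n => ⟨3 * af n, dvd_mul_right _ _, by
      change qCoeff ⇑(((3 : ℕ) : Module.End ℂ (CuspForm (Gamma0 N) 2)) f) n = _
      rw [Module.End.natCast_apply, ← Nat.cast_smul_eq_nsmul ℂ,
        Fermat.Agent.HeckeLift.qCoeff_smul, ← haf]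
      push_cast; rfl⟩
  have hne : 𝔭 ≠ ⊤ := by
    rw [Ne, Ideal.eq_top_iff_one]
    rintro ⟨g, hg, heq⟩
    rw [OneMemClass.coe_one, Module.End.one_apply] at heq
    obtain ⟨m, hm⟩ := Fermat.Agent.HeckeLift.exists_int_qCoeff_of_mem_intLattice hg 1
    have h1 : af 1 = 3 * m := by
      have := haf 1
      rw [heq, ← Int.cast_smul_eq_zsmul ℂ, Fermat.Agent.HeckeLift.qCoeff_smul, hm] at this
      exact_mod_cast this
    have h2 := hmod 1
    rw [heig.1, h1] at h2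
    omega
  obtain ⟨𝔪, h𝔪, hle⟩ := Ideal.exists_le_maximal 𝔭 hne
  obtain ⟨g, hg, ψ, 𝔪', h𝔪', hcomap, hT, -⟩ :=
    Fermat.Agent.HeckeLift.exists_eigenform_of_maximal hint 𝔪
  have hψ : ∀ t ∈ 𝔭, ψ t ∈ 𝔪' := fun t ht => by
    have := hle ht
    rw [← hcomap] at this
    exact this
  refine ⟨g, hg, 𝔪', h𝔪', ?_, fun ℓ hℓ hℓN => ?_⟩
  · have h3' := hψ _ h3
    rwa [map_natCast] at h3'
  refine ⟨ψ (CuspForm.heckeAlgebra.T hℓ hℓN (Set.notMem_empty ℓ)), hT ℓ hℓ hℓN, ?_⟩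
  have := hψ (CuspForm.heckeAlgebra.T hℓ hℓN (Set.notMem_empty ℓ) - (a ℓ : CuspForm.heckeAlgebra N 2 ∅))
    (hmem𝔭 _ fun n => ?_)
  · simpa using this
  refine ⟨af (n * ℓ) + (if ℓ ∣ n then (ℓ : ℤ) * af (n / ℓ) else 0) - a ℓ * af n, ?_, ?_⟩
  · have he := heig.2 ℓ hℓ n
    simp only [if_neg hℓN] at he
    rw [mul_comm ℓ n] at he
    split_ifs with hd
    · rw [if_pos hd] at he
      have key : af (n * ℓ) + (ℓ : ℤ) * af (n / ℓ) - a ℓ * af n =
          (af (n * ℓ) - a (n * ℓ)) + ((ℓ : ℤ) - chiNegThree ℓ) * af (n / ℓ)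
            + chiNegThree ℓ * (af (n / ℓ) - a (n / ℓ)) - a ℓ * (af n - a n) := by
        linear_combination he
      rw [key]
      exact dvd_sub (dvd_add (dvd_add (hmod _) ((chiNegThree_congr ℓ).mul_right _))
        ((hmod _).mul_left _)) ((hmod _).mul_left _)
    · rw [if_neg hd, mul_zero, add_zero] at he
      have key : af (n * ℓ) + 0 - a ℓ * af n =
          (af (n * ℓ) - a (n * ℓ)) - a ℓ * (af n - a n) := by
        linear_combination he
      rw [key]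
      exact dvd_sub (hmod _) ((hmod _).mul_left _)
  · change qCoeff ⇑((CuspForm.heckeTLin 2 hℓ hℓN -
      ((a ℓ : ℤ) : Module.End ℂ (CuspForm (Gamma0 N) 2))) f) n = _
    rw [LinearMap.sub_apply, Module.End.intCast_apply, ← Int.cast_smul_eq_zsmul ℂ,
      Fermat.Agent.HeckeLift.qCoeff_sub, Fermat.Agent.HeckeLift.qCoeff_smul,
      Fermat.Agent.HeckeLift.qCoeff_heckeTLin hℓ hℓN]
    simp only [← haf, show (2 : ℤ) - 1 = 1 by norm_num, zpow_one]
    split_ifs <;> push_cast <;> ring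

end Fermat.Agent.S49
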