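import Fermat.Statements.S57
import Fermat.Agent.PatchDescent.FreeOfDepth
import Fermat.Agent.PatchDescent.RegularSeq

/-!
# Descent of patching

A patching level with trivial relation ideal makes the module free and faithful, and the kernel of
the structure map is generated by the variables.
-/

set_option autoImplicit false
open Algebra Algebra.PatchingLevel

namespace Fermat.Agent.S57

open IsLocalRing RingTheory.Sequence

/-- The module of a patching level with trivial relation ideal is free over the power series ring: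
its parameters form a regular sequence. -/
theorem free_N {𝒪 : Type} [CommRing 𝒪] [IsDomain 𝒪] [IsDiscreteValuationRing 𝒪]
    {r : ℕ} {R : Type} [CommRing R] [Algebra 𝒪 R] [Nontrivial R]
    {M : Type} [AddCommGroup M] [Module R M] [Nontrivial M]
    (L : Algebra.PatchingLevel 𝒪 r R M ⊥) :
    Module.Free (MvPowerSeries (Fin r) 𝒪) L.N := by
  obtain ⟨ϖ, hϖ⟩ := IsDiscreteValuationRing.exists_irreducible 𝒪
  have hNne : Nontrivial L.N := L.π_surjective.nontrivial
  have hfin : Module.Finite (MvPowerSeries (Fin r) 𝒪) L.N := by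
    refine ⟨Submodule.fg_def.mpr ⟨Set.range L.b, Set.finite_range _, ?_⟩⟩
    refine eq_top_iff.mpr fun x _ => ?_
    obtain ⟨c, rfl⟩ := L.b_span x
    exact Submodule.sum_mem _ fun i _ => Submodule.smul_mem _ _ (Submodule.subset_span ⟨i, rfl⟩)
  let f : (Fin L.d → MvPowerSeries (Fin r) 𝒪) →+ L.N :=
    { toFun := fun c => ∑ i, L.φ (c i) • L.b i
      map_zero' := by simp
      map_add' := fun c c' => by simp [add_smul, Finset.sum_add_distrib] }
  have hf : Function.Bijective f := by
    refine ⟨(injective_iff_map_eq_zero f).mpr fun c hc => funext fun i => ?_, fun x => ?_⟩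
    · exact Ideal.mem_bot.mp ((L.b_rel c).mp hc i)
    · obtain ⟨c, hc⟩ := L.b_span x
      exact ⟨c, hc.symm⟩
  have hwr : IsWeaklyRegular L.N ((PatchDescent.params r ϖ).map L.φ) := by
    have h1 : IsWeaklyRegular (Fin L.d → MvPowerSeries (Fin r) 𝒪) (PatchDescent.params r ϖ) :=
      ((TensorProduct.rid _ (Fin L.d → MvPowerSeries (Fin r) 𝒪)).isWeaklyRegular_congr _).mp
        (PatchDescent.isWeaklyRegular_params hϖ r).isWeaklyRegular_lTensor
    refine ((AddEquiv.ofBijective f hf).isWeaklyRegular_congr ?_).mp h1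
    refine List.forall₂_map_right_iff.mpr (List.forall₂_same.mpr fun a _ c => ?_)
    change ∑ i, L.φ (a * c i) • L.b i = L.φ a • ∑ i, L.φ (c i) • L.b i
    simp [Finset.smul_sum, mul_smul]
  have hmem : ∀ y ∈ (PatchDescent.params r ϖ).map L.φ,
      y ∈ maximalIdeal (MvPowerSeries (Fin r) 𝒪) := by
    intro y hy
    rw [mem_maximalIdeal, mem_nonunits_iff]
    simp only [PatchDescent.params, List.map_append, List.mem_append, List.mem_map, List.mem_ofFn,
      List.mem_cons, List.not_mem_nil, or_false] at hy
    rcases hy with ⟨_, ⟨i, rfl⟩, rfl⟩ | ⟨_, rfl, rfl⟩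
    · intro hu
      exact not_isUnit_zero (L.ψ_φ_X i ▸ hu.map L.ψ)
    · rw [show (MvPowerSeries.C ϖ : MvPowerSeries (Fin r) 𝒪) = algebraMap 𝒪 _ ϖ from rfl,
        AlgHom.commutes, MvPowerSeries.isUnit_iff_constantCoeff]
      simpa [MvPowerSeries.algebraMap_apply] using hϖ.not_isUnit
  refine PatchDescent.free_of_regularSequence (r + 1) (MvPowerSeries (Fin r) 𝒪) ?_
    L.N _ (by simp [PatchDescent.length_params]) hmem
    (IsRegular.of_isWeaklyRegular_of_mem_maximalIdeal _ hmem hwr)
  exact PatchDescent.spanFinrank_maximalIdeal_le r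

theorem result
    {𝒪 : Type} [CommRing 𝒪] [IsDomain 𝒪] [IsDiscreteValuationRing 𝒪]
    {r : ℕ} {R : Type} [CommRing R] [Algebra 𝒪 R]
    {M : Type} [AddCommGroup M] [Module R M] [Nontrivial M]
    (L : Algebra.PatchingLevel 𝒪 r R M ⊥) :
    Module.Free R M ∧ Module.annihilator R M = ⊥ ∧
      RingHom.ker L.ψ = Ideal.span (Set.range fun i : Fin r => L.φ (MvPowerSeries.X i)) := by
  have hRne : Nontrivial R := Module.nontrivial R M
  have hfree := free_N L
  set I := Ideal.span (Set.range fun i : Fin r => L.φ (MvPowerSeries.X i)) with hI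
  have hIker : I ≤ RingHom.ker L.ψ := by
    refine Ideal.span_le.mpr ?_
    rintro _ ⟨i, rfl⟩
    exact L.ψ_φ_X i
  let e := Module.Free.chooseBasis (MvPowerSeries (Fin r) 𝒪) L.N
  have coeff_mem : ∀ x : L.N, L.π x = 0 → ∀ j, e.repr x j ∈ I := by
    intro x hx
    refine Submodule.smul_induction_on ((L.ker_π x).mp hx) ?_ ?_
    · intro a ha n _ j
      rw [map_smul, Finsupp.smul_apply, smul_eq_mul]
      exact I.mul_mem_right _ ha
    · intro y z hy hz j
      rw [map_add, Finsupp.add_apply]
      exact I.add_mem (hy j) (hz j)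
  have hind : LinearIndependent R (fun j => L.π (e j)) := by
    rw [linearIndependent_iff']
    intro s g hg j hj
    classical
    choose h hh using fun a : R => L.ψ_surjective a
    have h0 : L.π (∑ i ∈ s, h (g i) • e i) = 0 := by
      simp [map_sum, L.π_smul, hh, hg]
    have hmem := coeff_mem _ h0 j
    simp only [map_sum, map_smul, Module.Basis.repr_self, Finsupp.smul_single, smul_eq_mul, mul_one,
      Finsupp.finsetSum_apply, Finsupp.single_apply, Finset.sum_ite_eq', hj, if_true] at hmem
    rw [← hh (g j)]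
    exact hIker hmem
  have hspan : ⊤ ≤ Submodule.span R (Set.range fun j => L.π (e j)) := by
    intro m _
    obtain ⟨x, rfl⟩ := L.π_surjective m
    have hx := e.mem_span x
    clear * - hx
    induction hx using Submodule.span_induction with
    | mem y hy =>
      obtain ⟨j, rfl⟩ := hy
      exact Submodule.subset_span ⟨j, rfl⟩
    | zero => simp
    | add y z _ _ hy hz => rw [map_add]; exact add_mem hy hz
    | smul a y _ hy => rw [L.π_smul]; exact Submodule.smul_mem _ _ hy
  have hMfree : Module.Free R M := Module.Free.of_basis (Module.Basis.mk hind hspan)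
  refine ⟨hMfree, Module.annihilator_eq_bot.mpr inferInstance, le_antisymm ?_ hIker⟩
  intro f hf
  have : Nontrivial L.N := L.π_surjective.nontrivial
  obtain ⟨j⟩ := e.index_nonempty
  have h0 : L.π (f • e j) = 0 := by
    rw [L.π_smul, RingHom.mem_ker.mp hf, zero_smul]
  simpa using coeff_mem _ h0 j

end Fermat.Agent.S57
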