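import Fermat.Statements.S04
import Fermat.Agent.FLT.Main

/-!
# Modularity of the Frey curve

The Frey curve of a Frey package is modular.
-/

set_option autoImplicit false
open WeierstrassCurve WeierstrassCurve.Affine WeierstrassCurve.Affine.Point
open CuspForm ModularFormClass UpperHalfPlane
open FreyPackage

namespace Fermat.Agent.S04

theorem result (P : FreyPackage) : P.freyCurve.IsModular := by
  exact Fermat.Agent.FLT.frey_isModular P

end Fermat.Agent.S04
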