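import Fermat.Statements.S12
import Fermat.Agent.MazurPoint.Step
import Fermat.Agent.FreyQuotient.Assembly

/-!
# Cofixed lines, large exponents

The mod-`p` Frey representation has no Galois-stable cofixed line for `p ≥ 17`.
-/

set_option autoImplicit false
open WeierstrassCurve WeierstrassCurve.Affine WeierstrassCurve.Affine.Point
open CuspForm ModularFormClass UpperHalfPlane
open FreyPackage

namespace Fermat.Agent.S12

theorem result (P : FreyPackage) (hp : 17 ≤ P.p) : ¬ HasGaloisStableCofixedLine (K := AlgebraicClosure ℚ) ℚ P.freyCurve P.p := by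
  exact Fermat.Agent.FreyQuotient.noCofixedLarge_of_mazurStep Fermat.Agent.MazurPoint.mazurStep P hp

end Fermat.Agent.S12
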