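import Fermat.Statements.S14
import Fermat.Agent.ExtVanish.Assembly
import Fermat.Agent.ExtVanish.Descent
import Fermat.Agent.ClassLSeries.ExistsPrime

/-!
# Ext-vanishing

For every prime `p ≥ 3` there is no admissible extension of `ℤ/p` by `μ_p` over `Spec ℤ`.
-/

set_option autoImplicit false
open ExtCitation

namespace Fermat.Agent.S14

theorem result {p : ℕ} [Fact p.Prime] (h3 : 3 ≤ p) :
    ExtCitation.ExtVanishingCts p := by
  have : NeZero p := ⟨(Fact.out : p.Prime).ne_zero⟩
  have h : IsCyclotomicExtension {p} ℚ (CyclotomicField p ℚ) :=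
    CyclotomicField.isCyclotomicExtension p ℚ
  refine Fermat.Agent.ExtVanish.extVanishingCts_of_inputs h3 (CyclotomicField p ℚ)
    (fun V _ _ _ _ C hadm hns => Fermat.Agent.ExtVanish.exists_kummer_element hadm hns _
      (IsCyclotomicExtension.zeta_spec p ℚ _)) fun _ φ hφ a ha => ?_
  obtain ⟨P, l, hP, hl, hnorm, hlp, -, hφP, hres⟩ :=
    Fermat.Agent.ClassLSeries.exists_prime_class_ne_zero_not_pow h3
      (IsCyclotomicExtension.zeta_spec p ℚ (CyclotomicField p ℚ)) φ hφ a ha ∅
  exact ⟨P, l, hP, hl, hnorm, hlp, hφP, hres⟩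

end Fermat.Agent.S14
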