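import Fermat.Statements.S16
import Fermat.Agent.Eisenstein.Upper
import Fermat.Agent.Eisenstein.Lower
import Fermat.Agent.Eisenstein.SmallPrimes

/-!
# The Eisenstein quotient

For a prime `p` the Eisenstein ideal has index the numerator of `(p - 1) / 12` in the Hecke algebra
of weight 2 and level `p`.
-/

set_option autoImplicit false
open ModularCurve CuspForm
open ModularCurve

namespace Fermat.Agent.S16

theorem result
    (p : ℕ) [Fact p.Prime] :
    Nat.card (↥(heckeLatticeAlgebra p ∅) ⧸
        Ideal.map ((latticeRestrictHom p ∅).toRingHom.comp (heckeEvalForms p 2))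
          (eisensteinIdeal p)) =
      eisensteinNumerator p := by
  change Nat.card (↥(heckeLatticeAlgebra p ∅) ⧸ Eisenstein.eisIdeal p) = eisensteinNumerator p
  by_cases h3 : p ≤ 3
  · rw [Eisenstein.card_eq_one_of_le_three h3, Eisenstein.numerator_eq_one_of_le_three h3]
  have h5 : 5 ≤ p := by
    rcases (Fact.out : p.Prime).eq_two_or_odd with h | h <;> omega
  refine Nat.dvd_antisymm ?_ (Eisenstein.numerator_dvd_card (by omega))
  rw [Nat.dvd_iff_prime_pow_dvd_dvd]
  exact fun l m hl h => Eisenstein.primePow_dvd_numerator h5 hl h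

end Fermat.Agent.S16
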