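import Fermat.Statements.S18
import Fermat.Agent.GoodReductionS18.Model.Fibres

/-!
# Injectivity of reduction on torsion

For `ℓ ∤ N` reduction mod `ℓ` is injective on the prime-to-`ℓ` torsion of `J₀(N)`.
-/

set_option autoImplicit false
open ModularCurve

namespace Fermat.Agent.S18

theorem result (N : ℕ) [NeZero N] {ℓ : ℕ}
    [Fact ℓ.Prime] (hℓN : ¬ ℓ ∣ N) (A : ValuationSubring (AlgebraicClosure ℚ)) (hA : A.LiesOverPrime ℓ)
    (h : ModularCurve.ReductionInputsModL A N) (m : ℕ) (hm : ¬ ℓ ∣ m) (z : ModularCurve.JZero N)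
    (hmz : m • z = 0) (hz : ModularCurve.reductionModL A N z = 0) :
    z = 0 := by
  have : IsAlgClosed (IsLocalRing.ResidueField A) :=
    Fermat.Agent.GaloisBasics.residueField_isAlgClosed A
  refine Fermat.Agent.GoodReductionS18.eq_zero_of_reductionModL A hA (fun M _ hM => ?_) h m hm z hmz hz
  have := Fermat.Agent.GaloisBasics.residueField_charP hA (Fact.out : ℓ.Prime)
  rcases hM with ⟨hℓ, rfl⟩ | ⟨hℓ, rfl⟩
  · refine Fermat.Agent.GoodReductionS18.hasGoodModel (h := 2) (.inl rfl) (Nat.dvd_lcm_right N 2)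
      ?_ IsLocalRing.residue_surjective ?_
    · rw [Ne, CharP.cast_eq_zero_iff _ ℓ]
      exact fun hd => ((Nat.Prime.dvd_mul Fact.out).mp (hd.trans (Nat.lcm_dvd_mul N 2))).elim hℓN
        fun h2 => hℓ ((Nat.prime_dvd_prime_iff_eq Fact.out Nat.prime_two).mp h2)
    · exact Fermat.Agent.GoodReductionS18.hauptFibres 2 _ (.inl rfl)
  · refine Fermat.Agent.GoodReductionS18.hasGoodModel (h := 3) (.inr rfl) (Nat.dvd_lcm_right N 3)
      ?_ IsLocalRing.residue_surjective ?_
    · rw [Ne, CharP.cast_eq_zero_iff _ ℓ]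
      exact fun hd => ((Nat.Prime.dvd_mul Fact.out).mp (hd.trans (Nat.lcm_dvd_mul N 3))).elim hℓN
        fun h3 => by
          have := (Nat.prime_dvd_prime_iff_eq Fact.out Nat.prime_three).mp h3
          omega
    · exact Fermat.Agent.GoodReductionS18.hauptFibres 3 _ (.inr rfl)

end Fermat.Agent.S18
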