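import Fermat.Statements.S25
import Fermat.Agent.RelJac.Assembly.Final
import Fermat.Agent.RelJac.Functor

/-!
# The Jacobian of a curve

The degree-zero relative Picard functor of a smooth proper curve with a rational point over an
algebraically closed field is represented by a smooth, proper, connected scheme.
-/

set_option autoImplicit false
universe u
open CategoryTheory CategoryTheory.Limits AlgebraicGeometry AlgebraicGeometry.RelPicard NeronModelInfra
  GoodReductionJacobian
open AlgebraicGeometry AlgebraicGeometry.RelPicard

namespace Fermat.Agent.S25

theorem result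
    (k : Type u) [Field k] [IsAlgClosed k] {C : Scheme.{u}} (c : C ⟶ Spec (CommRingCat.of k))
    [IsProper c] [SmoothOfRelativeDimension 1 c] [IsIntegral C]
    (ε : SchemeHomOver (𝟙 (Spec (CommRingCat.of k))) c) :
    ∃ D : RelativePic0Designation k c,
      Nonempty (RepresentsRelSubPic c ε (algEquivZeroCut c ε) D) ∧
        Smooth D.toBase ∧ IsProper D.toBase ∧ GeometricallyConnected D.toBase := by
  obtain ⟨D⟩ := Fermat.Agent.RelJac.exists_curveModel k c ε
  obtain ⟨Φ, ⟨K⟩⟩ := D.exists_picFunctor
  exact Fermat.Agent.RelJac.CurveModel.exists_designation_of_picFunctor K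

end Fermat.Agent.S25
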