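import Fermat.Statements.S26
import Fermat.Agent.AVTorsion.DegreeRecursion
import Fermat.Agent.AVTorsion.Height

/-!
# Torsion of abelian varieties

An abelian variety of dimension `g` has `n ^ (2 g)` points killed by `n` invertible in the field.
-/

set_option autoImplicit false
open CategoryTheory CategoryTheory.Limits AlgebraicGeometry NeronModelInfra GoodReductionJacobian
universe u
open GoodReductionJacobian GoodReductionJacobian.RelativeGroupLaw

namespace Fermat.Agent.S26

theorem result
    (K : Type u) [Field K] [IsAlgClosed K] {A : Scheme.{u}} (f : A ⟶ Spec (CommRingCat.of K))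
    (L : RelativeGroupLaw K f) (hc : L.IsCommutative) (hA : AbelianSchemePropertyBundle K f)
    (g : ℕ) [SmoothOfRelativeDimension g f] (n : ℕ) (hn : (n : K) ≠ 0) :
    Nat.card {x : SchemeHomOver (𝟙 (Spec (CommRingCat.of K))) f //
        L.IsTorsionPoint (𝟙 (Spec (CommRingCat.of K))) n x} = n ^ (2 * g) := by
  refine Fermat.Agent.AVTorsion.natCard_isTorsionPoint_eq_pow_of_heightScaling K f L hc hA g n hn
    (fun X => ?_)
  unfold Fermat.Agent.AVTorsion.AbVar.HeightScaling
  intros Om K' F L' _ _ _ _ _ _ _ _ _ _ _ _ _ _ _ _ _ _ _ _ _ _ _ _ φ a ha u hu m hm e1 em h1 hem htr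
  exact Fermat.Agent.AVTorsion.AbVar.degFun_smul φ ha hu hm e1 em h1 hem htr

end Fermat.Agent.S26
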