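import Fermat.Statements.S27
import Fermat.Agent.CurveBaseChange.Reduction
import Fermat.Agent.CurveJacobian.Torsion

/-!
# Torsion of the class group of a curve

In characteristic zero a curve of genus `g` has `ℓ ^ (2 g k)` divisor classes killed by `ℓᵏ`.
-/

set_option autoImplicit false
open AlgebraicCurve
open AlgebraicCurve AlgebraicCurve.Pic0

namespace Fermat.Agent.S27

theorem result
    (K F : Type*) [Field K] [Field F] [Algebra K F] [IsAlgClosed K] [CharZero K]
    [IsCurveOver K F] [Algebra.EssFiniteType K F]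
    (ℓ : ℕ) [Fact ℓ.Prime] (k : ℕ) :
    Nat.card (Pic0.torsion K F (ℓ ^ k)) = ℓ ^ (2 * genusFF K F * k) := by
  have : Fermat.Agent.FunctionField.IsFunctionField K F :=
    Fermat.Agent.FunctionField.isFunctionField_of_isCurveOver
  rw [Fermat.Agent.CurveBaseChange.natCard_torsion_eq
    (fun F _ _ _ _ n hn => Fermat.Agent.CurveJacobian.natCard_torsion F n hn)
    (ℓ ^ k) (pow_pos (Fact.out : ℓ.Prime).pos k), ← pow_mul, mul_comm k]

end Fermat.Agent.S27
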