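import Fermat.Statements.S28
import Fermat.Agent.IgusaX0.Assembly
import Fermat.Agent.ModularFunctionField.Descent

/-!
# Igusa's theorem

For `ℓ ∤ N` the Igusa model of `X₀(N)` over `ℤ_(ℓ)` has integral fibres in characteristic `ℓ`.
-/

set_option autoImplicit false
open AlgebraicGeometry CategoryTheory CategoryTheory.Limits ModularCurve ModularCurve.IgusaScheme
noncomputable section

namespace Fermat.Agent.S28

open Fermat.Agent in
/-- The degree input of the reduction argument. -/
def degreeData (N : ℕ) [NeZero N] (ℓ : ℕ) [Fact ℓ.Prime] (hℓN : ¬ ℓ ∣ N) :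
    IgusaX0.DegreeData N ℓ where
  n := dedekindPsi N
  dim_le v hv := ModularFunctionField.not_linearIndependent_of_mem
    (K := ℚ) (Nat.cast_ne_zero.mpr (NeZero.ne N)) (Nat.lt_succ_self _) v hv
  indep := ModularFunctionField.linearIndependent_pow_jqNModC
    (by rwa [Ne, ZMod.natCast_eq_zero_iff])

/-- S28: Igusa's theorem, the fibres of the Igusa model in characteristic `ℓ ∤ N` are integral. -/
theorem result
    (N : ℕ) [NeZero N] (ℓ : ℕ) [Fact ℓ.Prime] (hℓN : ¬ ℓ ∣ N)
    (K : Type) [Field K] [CharP K ℓ] [Algebra ↥(GaloisRep.ratLocalizedAt ℓ) K] :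
    IsIntegral ↑(pullback (igusaTo N ℓ)
      (Spec.map (CommRingCat.ofHom (algebraMap ↥(GaloisRep.ratLocalizedAt ℓ) K)))) :=
  Fermat.Agent.IgusaX0.isIntegral_igusa (degreeData N ℓ hℓN) K

end Fermat.Agent.S28
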