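import Fermat.Statements.S41
import Fermat.Agent.LevelRaising.Main

/-!
# Level raising

Under the congruence `a_q² ≡ (q + 1)²` a form congruent to the curve exists which is new at `q`.
-/

set_option autoImplicit false
open WeierstrassCurve WeierstrassCurve.Affine WeierstrassCurve.Affine.Point
open scoped CongruenceSubgroup
open WeierstrassCurve

namespace Fermat.Agent.S41

theorem result
    (E : WeierstrassCurve ℚ) [E.IsElliptic] {W : WeierstrassCurve ℤ} (hW : W.IsIntegralModelOf E)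
    {p N q' : ℕ} (hp : p.Prime) (hp2 : p ≠ 2) (hN : 0 < N) (hq' : q'.Prime) (hq'N : ¬ q' ∣ N) (hq'p : q' ≠ p)
    (hirr : GaloisRepIsIrreducible (K := AlgebraicClosure ℚ) ℚ E p)
    (f : CuspForm (CongruenceSubgroup.Gamma0 N) 2) (𝔪 : Ideal (integralClosure ℤ ℂ))
    (hf : f.IsNormalizedEigenform) (hmax : 𝔪.IsMaximal) (hpm : (p : integralClosure ℤ ℂ) ∈ 𝔪)
    (hcong : ∀ ℓ : ℕ, ℓ.Prime → W.IsGoodPrimeFor ℓ → ¬ ℓ ∣ N → ℓ ≠ p →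
      ∃ a : integralClosure ℤ ℂ, (a : ℂ) = ModularFormClass.qCoeff f ℓ ∧
        a - ((W.apOfModel ℓ : ℤ) : integralClosure ℤ ℂ) ∈ 𝔪)
    (hLR : ∃ a : integralClosure ℤ ℂ, (a : ℂ) = ModularFormClass.qCoeff f q' ∧
      a ^ 2 - ((q' : integralClosure ℤ ℂ) + 1) ^ 2 ∈ 𝔪) :
    ∃ (g : CuspForm (CongruenceSubgroup.Gamma0 (N * q')) 2) (𝔪' : Ideal (integralClosure ℤ ℂ)),
      g.IsNormalizedEigenform ∧ 𝔪'.IsMaximal ∧ (p : integralClosure ℤ ℂ) ∈ 𝔪' ∧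
      (∀ ℓ : ℕ, ℓ.Prime → W.IsGoodPrimeFor ℓ → ¬ ℓ ∣ N * q' → ℓ ≠ p →
        ∃ a : integralClosure ℤ ℂ, (a : ℂ) = ModularFormClass.qCoeff g ℓ ∧
          a - ((W.apOfModel ℓ : ℤ) : integralClosure ℤ ℂ) ∈ 𝔪') ∧
      g.IsNewAt q' := by
  have : Fact p.Prime := ⟨hp⟩
  have : NeZero N := ⟨hN.ne'⟩
  obtain ⟨ℓ, hℓ, hℓM, hgood, hℓ1, ha⟩ :=
    Fermat.Agent.LevelRaisingPrime.exists_auxiliary_prime W p hW hp2 hirr (N * q')
      (Nat.mul_pos hN hq'.pos)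
  have h1 := congrArg (ZMod.castHom (dvd_mul_left (N * q') p) (ZMod (N * q'))) hℓ1
  have h2 := congrArg (ZMod.castHom (dvd_mul_right p (N * q')) (ZMod p)) hℓ1
  rw [map_natCast, map_one] at h1 h2
  obtain ⟨g, 𝔪', hg, hm', hpm', hcong', hnew⟩ :=
    Fermat.Agent.LevelRaising.exists_newform hq' hq'N hp2 hf hmax hpm W.apOfModel
      (fun ℓ => W.IsGoodPrimeFor ℓ ∧ ℓ ≠ p) (fun ℓ hℓ h hN' => hcong ℓ hℓ h.1 hN' h.2) hLR hℓ
      (fun h => hℓM (dvd_mul_of_dvd_left h p)) h1 h2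
      ⟨hgood, fun h => hℓM (h ▸ dvd_mul_left p (N * q'))⟩ ha
  exact ⟨g, 𝔪', hg, hm', hpm', fun ℓ hℓ h hN' hne => hcong' ℓ hℓ ⟨h, hne⟩ hN', hnew⟩

end Fermat.Agent.S41
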