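import Fermat.Statements.S42
import Fermat.Agent.KummerES.ModulesAction
import Fermat.Agent.KummerES.ModulesFinal

/-!
# Residual attachment for the Frey package

Weight 2 eigenforms of every level have residual representations at the prime of the package.
-/

set_option autoImplicit false
open FreyPackage

namespace Fermat.Agent.S42

theorem result (P : FreyPackage) :
    ∀ M : ℕ, 0 < M → P.EigenformResidualAttachmentAt M :=
  KummerES.eigenformResidualAttachmentAtFamily_of_modules (fun N _ p _ => KummerES.nonempty_gamma0Modules N p Fact.out) P

end Fermat.Agent.S42
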